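import Mathlib.NumberTheory.NumberField.Basic
import Mathlib.RingTheory.Valuation.RamificationGroup
import Mathlib.RingTheory.Valuation.LocalSubring
import Mathlib.RingTheory.DedekindDomain.Dvr
import Mathlib.FieldTheory.IsAlgClosed.AlgebraicClosure
import Mathlib.FieldTheory.Galois.Infinite
import Fermat.Prelude.Def_FLTPrelim_Ramification

/-!
# Places of `ℚ̄`

Valuation subrings of `AlgebraicClosure ℚ` over a prime number, and the
corresponding prime ideals of the ring of all algebraic integers.
-/

set_option autoImplicit false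

open scoped Pointwise NumberField

namespace Fermat.Agent.GaloisBasics

/-- Shorthand for the fixed algebraic closure of `ℚ`. -/
abbrev Qbar : Type := AlgebraicClosure ℚ

/-- The absolute Galois group of `ℚ`. -/
abbrev GalQ : Type := Qbar ≃ₐ[ℚ] Qbar

/-- The ring of all algebraic integers inside `AlgebraicClosure ℚ`. -/
abbrev Zbar : Type := 𝓞 Qbar

instance qbar_isAlgebraic : Algebra.IsAlgebraic ℚ Qbar := AlgebraicClosure.isAlgebraic ℚ

instance qbar_isAlgClosure : IsAlgClosure ℚ Qbar := ⟨inferInstance, inferInstance⟩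

instance qbar_normal : Normal ℚ Qbar := IsAlgClosure.normal ℚ Qbar

instance qbar_isGalois : IsGalois ℚ Qbar := {}

variable {A B : ValuationSubring Qbar} {q : ℕ}

/-- An algebraic integer is integral. -/
theorem isIntegral_coe (b : Zbar) : IsIntegral ℤ (b : Qbar) :=
  NumberField.RingOfIntegers.isIntegral_coe b

/-- Algebraic integers lie in every valuation subring. -/
theorem mem_of_isIntegral (A : ValuationSubring Qbar) {x : Qbar} (hx : IsIntegral ℤ x) :
    x ∈ A := by
  obtain ⟨y, hy⟩ := IsIntegrallyClosed.algebraMap_eq_of_integral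
    (R := A) (K := Qbar) (x := x) hx.tower_top
  exact hy ▸ y.2

/-- Every place contains the algebraic integers. -/
theorem coe_mem (A : ValuationSubring Qbar) (b : Zbar) : (b : Qbar) ∈ A :=
  mem_of_isIntegral A (isIntegral_coe b)

/-- The inclusion of the algebraic integers into a valuation subring. -/
noncomputable def zbarIncl (A : ValuationSubring Qbar) : Zbar →+* A :=
  (algebraMap Zbar Qbar).codRestrict A.toSubring (coe_mem A)

@[simp] theorem coe_zbarIncl (A : ValuationSubring Qbar) (b : Zbar) :
    (zbarIncl A b : Qbar) = b := rfl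

/-- The prime ideal of the algebraic integers cut out by a valuation subring. -/
noncomputable def zbarIdeal (A : ValuationSubring Qbar) : Ideal Zbar :=
  (IsLocalRing.maximalIdeal A).comap (zbarIncl A)

/-- Membership in the prime below a place. -/
theorem mem_zbarIdeal {b : Zbar} : b ∈ zbarIdeal A ↔ (b : Qbar) ∈ A.nonunits := by
  rw [zbarIdeal, Ideal.mem_comap, ← ValuationSubring.coe_mem_nonunits_iff, coe_zbarIncl]

instance zbarIdeal_isPrime (A : ValuationSubring Qbar) : (zbarIdeal A).IsPrime :=
  Ideal.IsPrime.comap _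

/-- The residue map on algebraic integers. -/
noncomputable def zbarResidue (A : ValuationSubring Qbar) :
    Zbar →+* IsLocalRing.ResidueField A :=
  (IsLocalRing.residue A).comp (zbarIncl A)

theorem zbarResidue_apply (b : Zbar) :
    zbarResidue A b = IsLocalRing.residue A ⟨b, coe_mem A b⟩ := rfl

/-- An algebraic integer reduces to zero exactly on the prime below the place. -/
theorem zbarResidue_eq_zero_iff {b : Zbar} : zbarResidue A b = 0 ↔ b ∈ zbarIdeal A := by
  rw [zbarResidue, RingHom.comp_apply, IsLocalRing.residue_eq_zero_iff, zbarIdeal,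
    Ideal.mem_comap]

/-- Equal reductions mean congruence modulo the prime below the place. -/
theorem zbarResidue_eq_iff {b c : Zbar} :
    zbarResidue A b = zbarResidue A c ↔ b - c ∈ zbarIdeal A := by
  rw [← zbarResidue_eq_zero_iff, map_sub, sub_eq_zero]

/-- The kernel of reduction is the prime below the place. -/
theorem ker_zbarResidue (A : ValuationSubring Qbar) :
    RingHom.ker (zbarResidue A) = zbarIdeal A :=
  Ideal.ext fun _ ↦ zbarResidue_eq_zero_iff

/-! ### Rational numbers in a valuation subring over `q` -/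

/-- The residue characteristic lies in the prime below the place. -/
theorem natCast_mem_zbarIdeal (hA : A.LiesOverPrime q) : (q : Zbar) ∈ zbarIdeal A := by
  rw [mem_zbarIdeal]
  simpa [ValuationSubring.LiesOverPrime] using hA

/-- The prime below the place lies over the residue characteristic. -/
theorem under_int_zbarIdeal (hA : A.LiesOverPrime q) (hq : q.Prime) :
    (zbarIdeal A).under ℤ = Ideal.span {(q : ℤ)} := by
  have hmax : (Ideal.span {(q : ℤ)}).IsMaximal :=
    PrincipalIdealRing.isMaximal_of_irreducible (Nat.prime_iff_prime_int.mp hq).irreducible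
  refine (hmax.eq_of_le Ideal.IsPrime.ne_top' ?_).symm
  rw [Ideal.span_le, Set.singleton_subset_iff, SetLike.mem_coe, Ideal.mem_comap]
  simpa using natCast_mem_zbarIdeal hA

/-- An integer lies in the prime below the place exactly when `q` divides it. -/
theorem intCast_mem_zbarIdeal_iff (hA : A.LiesOverPrime q) (hq : q.Prime) (n : ℤ) :
    (n : Zbar) ∈ zbarIdeal A ↔ (q : ℤ) ∣ n := by
  rw [← Ideal.mem_span_singleton, ← under_int_zbarIdeal hA hq, Ideal.mem_comap, eq_intCast]

/-- An integer lies in the maximal ideal exactly when `q` divides it. -/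
theorem intCast_mem_nonunits_iff (hA : A.LiesOverPrime q) (hq : q.Prime) (n : ℤ) :
    (n : Qbar) ∈ A.nonunits ↔ (q : ℤ) ∣ n := by
  rw [← intCast_mem_zbarIdeal_iff hA hq, mem_zbarIdeal]
  simp

/-- A natural number lies in the maximal ideal exactly when `q` divides it. -/
theorem natCast_mem_nonunits_iff (hA : A.LiesOverPrime q) (hq : q.Prime) (n : ℕ) :
    (n : Qbar) ∈ A.nonunits ↔ q ∣ n := by
  rw [← Int.natCast_dvd_natCast, ← intCast_mem_nonunits_iff hA hq, Int.cast_natCast]

/-- A natural number lies in the prime below the place exactly when `q` divides it. -/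
theorem natCast_mem_zbarIdeal_iff (hA : A.LiesOverPrime q) (hq : q.Prime) (n : ℕ) :
    (n : Zbar) ∈ zbarIdeal A ↔ q ∣ n := by
  rw [mem_zbarIdeal, ← natCast_mem_nonunits_iff hA hq]
  simp

/-- The residue field of a place over `q` has characteristic `q`. -/
theorem residueField_charP (hA : A.LiesOverPrime q) (hq : q.Prime) :
    CharP (IsLocalRing.ResidueField A) q where
  cast_eq_zero_iff n := by
    rw [← map_natCast (zbarResidue A), zbarResidue_eq_zero_iff,
      natCast_mem_zbarIdeal_iff hA hq]

/-- The prime below a place over a prime is maximal. -/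
theorem zbarIdeal_isMaximal (hA : A.LiesOverPrime q) (hq : q.Prime) :
    (zbarIdeal A).IsMaximal := by
  refine Ideal.isMaximal_of_isIntegral_of_isMaximal_comap (R := ℤ) _ ?_
  rw [← Ideal.under_def, under_int_zbarIdeal hA hq]
  exact PrincipalIdealRing.isMaximal_of_irreducible (Nat.prime_iff_prime_int.mp hq).irreducible

/-! ### A valuation subring is the localisation of the algebraic integers at its prime -/

/-- Localisation dichotomy: every algebraic number or its inverse is a quotient of algebraic
integers with denominator outside a given nonzero prime. -/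
theorem exists_mul_eq_or_mul_eq (P : Ideal Zbar) [P.IsPrime] (hP : P.under ℤ ≠ ⊥) (x : Qbar) :
    ∃ c s : Zbar, s ∉ P ∧ (x * s = c ∨ x * c = s) := by
  let K : IntermediateField ℚ Qbar := IntermediateField.adjoin ℚ {x}
  have : FiniteDimensional ℚ K :=
    IntermediateField.adjoin.finiteDimensional (Algebra.IsAlgebraic.isAlgebraic x).isIntegral
  have : NumberField K := {}
  let ι : 𝓞 K →+* Zbar := NumberField.RingOfIntegers.mapRingHom K.val
  have hι : ∀ a : 𝓞 K, (ι a : Qbar) = ((a : K) : Qbar) := fun a ↦ rfl
  let PK : Ideal (𝓞 K) := P.comap ι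
  have : PK.IsPrime := Ideal.IsPrime.comap _
  have hPK : PK ≠ ⊥ := by
    intro h
    obtain ⟨n, hn, hn0⟩ := Submodule.exists_mem_ne_zero_of_ne_bot hP
    rw [Ideal.mem_comap, eq_intCast] at hn
    have hn' : (n : 𝓞 K) ∈ PK := by rw [Ideal.mem_comap, map_intCast]; exact hn
    rw [h, Ideal.mem_bot] at hn'
    exact hn0 (by exact_mod_cast hn')
  let R := Localization.AtPrime PK
  have := IsLocalization.AtPrime.isDiscreteValuationRing_of_dedekind_domain (𝓞 K) hPK R
  obtain ⟨a, d, hd, hx⟩ :=
    IsFractionRing.div_surjective (𝓞 K) (⟨x, IntermediateField.mem_adjoin_simple_self ℚ x⟩ : K)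
  have hd0 : (ι d : Qbar) ≠ 0 := by
    rw [hι]
    simpa using nonZeroDivisors.ne_zero hd
  have hx' : x * (ι d : Qbar) = ι a := by
    have h := congr(((($hx) : K) : Qbar))
    simp only [IntermediateField.coe_div] at h
    rw [hι, hι]
    rw [← h, div_mul_cancel₀]
    rw [← hι]; exact hd0
  have hinj : Function.Injective (algebraMap (𝓞 K) R) :=
    IsLocalization.injective R PK.primeCompl_le_nonZeroDivisors
  rcases ValuationRing.dvd_total (algebraMap (𝓞 K) R d) (algebraMap (𝓞 K) R a) with
    ⟨r, hr⟩ | ⟨r, hr⟩
  · obtain ⟨⟨c, s⟩, hcs⟩ := IsLocalization.surj PK.primeCompl r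
    have h1 : a * (s : 𝓞 K) = d * c := by
      apply hinj
      rw [map_mul, map_mul, hr, mul_assoc, hcs]
    refine ⟨ι c, ι s, fun h ↦ s.2 h, Or.inl (mul_left_cancel₀ hd0 ?_)⟩
    have h2 := congr(algebraMap Zbar Qbar (ι $h1))
    simp only [map_mul, NumberField.RingOfIntegers.coe_eq_algebraMap] at h2 hx' ⊢
    linear_combination h2 + algebraMap Zbar Qbar (ι s) * hx'
  · obtain ⟨⟨c, s⟩, hcs⟩ := IsLocalization.surj PK.primeCompl r
    have h1 : d * (s : 𝓞 K) = a * c := by
      apply hinj
      rw [map_mul, map_mul, hr, mul_assoc, hcs]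
    refine ⟨ι c, ι s, fun h ↦ s.2 h, Or.inr (mul_left_cancel₀ hd0 ?_)⟩
    have h2 := congr(algebraMap Zbar Qbar (ι $h1))
    simp only [map_mul, NumberField.RingOfIntegers.coe_eq_algebraMap] at h2 hx' ⊢
    linear_combination -h2 + algebraMap Zbar Qbar (ι c) * hx'

/-- Every element of a valuation subring over `q` is a quotient of algebraic integers with
denominator outside the corresponding prime. -/
theorem exists_mul_eq_of_mem (hA : A.LiesOverPrime q) (hq : q.Prime) {x : Qbar} (hx : x ∈ A) :
    ∃ c s : Zbar, s ∉ zbarIdeal A ∧ x * s = c := by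
  have hbot : (zbarIdeal A).under ℤ ≠ ⊥ := by
    rw [under_int_zbarIdeal hA hq]
    simpa using hq.ne_zero
  obtain ⟨c, s, hs, h | h⟩ := exists_mul_eq_or_mul_eq (zbarIdeal A) hbot x
  · exact ⟨c, s, hs, h⟩
  · refine ⟨s, c, fun hc ↦ hs ?_, h⟩
    rw [mem_zbarIdeal] at hc ⊢
    rw [← h]
    have := Ideal.mul_mem_left (IsLocalRing.maximalIdeal A) ⟨x, hx⟩
      (ValuationSubring.coe_mem_nonunits_iff.mp (show ((⟨c, coe_mem A c⟩ : A) : Qbar) ∈ _ from hc))
    exact ValuationSubring.coe_mem_nonunits_iff.mpr this

/-- A place is the localisation of the algebraic integers at the prime below it. -/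
theorem mem_iff_exists_mul_eq (hA : A.LiesOverPrime q) (hq : q.Prime) {x : Qbar} :
    x ∈ A ↔ ∃ c s : Zbar, s ∉ zbarIdeal A ∧ x * s = c := by
  refine ⟨exists_mul_eq_of_mem hA hq, ?_⟩
  rintro ⟨c, s, hs, h⟩
  have hu : IsUnit (zbarIncl A s) := by
    by_contra hn
    exact hs hn
  obtain ⟨u, hu⟩ := hu.exists_right_inv
  have hsu : (s : Qbar) * (u : Qbar) = 1 := congr((($hu : A) : Qbar))
  have hx : x = (c : Qbar) * (u : Qbar) := by rw [← h, mul_assoc, hsu, mul_one]
  rw [hx]
  exact mul_mem (coe_mem A c) u.2

/-- A valuation subring over a prime is determined by its ideal of algebraic integers. -/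
theorem eq_of_zbarIdeal_eq (hA : A.LiesOverPrime q) (hq : q.Prime)
    (h : zbarIdeal A = zbarIdeal B) : A = B := by
  have hB : B.LiesOverPrime q := by
    have := natCast_mem_zbarIdeal hA
    rw [h, mem_zbarIdeal] at this
    simpa [ValuationSubring.LiesOverPrime] using this
  ext x
  rw [mem_iff_exists_mul_eq hA hq, mem_iff_exists_mul_eq hB hq, h]

/-- Every residue at a place over a prime is that of an algebraic integer. -/
theorem zbarResidue_surjective (hA : A.LiesOverPrime q) (hq : q.Prime) :
    Function.Surjective (zbarResidue A) := by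
  intro y
  obtain ⟨⟨x, hx⟩, rfl⟩ := IsLocalRing.residue_surjective y
  obtain ⟨c, s, hs, h⟩ := exists_mul_eq_of_mem hA hq hx
  have := zbarIdeal_isMaximal hA hq
  obtain ⟨t, i, hi, hti⟩ := Ideal.IsMaximal.exists_inv inferInstance hs
  refine ⟨c * t, ?_⟩
  have h1 : zbarResidue A t * zbarResidue A s = 1 := by
    rw [← zbarResidue_eq_zero_iff] at hi
    simpa [hi] using congr(zbarResidue A $hti)
  have h2 : zbarResidue A c = IsLocalRing.residue A ⟨x, hx⟩ * zbarResidue A s := by
    rw [zbarResidue_apply, zbarResidue_apply, ← map_mul]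
    exact congr_arg _ (Subtype.ext h.symm)
  rw [map_mul, h2, mul_assoc, mul_comm (zbarResidue A s), h1, mul_one]

/-! ### Existence -/

/-- Every prime has a place over it. -/
theorem exists_liesOverPrime (hq : q.Prime) :
    ∃ A : ValuationSubring Qbar, A.LiesOverPrime q := by
  let f : ℤ →+* Qbar := Int.castRingHom Qbar
  let I : Ideal f.range := Ideal.span {f.rangeRestrict (q : ℤ)}
  have hI : I ≠ ⊤ := by
    intro h
    rw [Ideal.span_singleton_eq_top] at h
    obtain ⟨⟨_, n, rfl⟩, hn⟩ := h.exists_right_inv
    have h1 : ((q * n : ℤ) : Qbar) = ((1 : ℤ) : Qbar) := by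
      simpa [f] using congr(($hn : Qbar))
    have h2 := Int.eq_one_of_mul_eq_one_right (by positivity) (Int.cast_injective h1)
    exact hq.one_lt.ne' (by exact_mod_cast h2)
  obtain ⟨A, -, hA⟩ := I.image_subset_nonunits_valuationSubring hI
  refine ⟨A, hA ⟨f.rangeRestrict q, Ideal.subset_span rfl, ?_⟩⟩
  simp [f]

end Fermat.Agent.GaloisBasics
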