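import Mathlib.RingTheory.Invariant.Profinite
import Mathlib.FieldTheory.Galois.Profinite
import Mathlib.FieldTheory.Galois.Infinite
import Fermat.Prelude.Def_EllipticCurve_FrobeniusTrace
import Fermat.Agent.GaloisBasics.Place

/-!
# Decomposition groups of `Gal(ℚ̄/ℚ)`

Decomposition groups, inertia groups and Frobenius elements of the absolute Galois group of `ℚ`
at valuation subrings of `AlgebraicClosure ℚ`.
-/

set_option autoImplicit false

open scoped Pointwise NumberField

namespace Fermat.Agent.GaloisBasics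

variable {A B : ValuationSubring Qbar} {q : ℕ} {σ τ : GalQ}

/-! ### The action on algebraic integers -/

@[simp] theorem coe_smul_zbar (σ : GalQ) (b : Zbar) : ((σ • b : Zbar) : Qbar) = σ (b : Qbar) := rfl

/-- Membership in a translated place. -/
theorem mem_smul_iff (σ : GalQ) (A : ValuationSubring Qbar) (x : Qbar) :
    x ∈ σ • A ↔ σ⁻¹ x ∈ A :=
  ValuationSubring.mem_pointwise_smul_iff_inv_smul_mem

/-- An image lies in the translated place exactly when the element lies in the place. -/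
theorem apply_mem_smul_iff (σ : GalQ) (A : ValuationSubring Qbar) (x : Qbar) :
    σ x ∈ σ • A ↔ x ∈ A :=
  ValuationSubring.smul_mem_pointwise_smul_iff

/-- Membership in the maximal ideal of a translated place. -/
theorem mem_nonunits_smul_iff (σ : GalQ) (A : ValuationSubring Qbar) (x : Qbar) :
    x ∈ (σ • A).nonunits ↔ σ⁻¹ x ∈ A.nonunits := by
  rw [ValuationSubring.mem_nonunits_iff_or, ValuationSubring.mem_nonunits_iff_or, mem_smul_iff,
    map_inv₀, map_eq_zero]

/-- The prime of algebraic integers below a translated place is the translated prime. -/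
theorem zbarIdeal_smul (σ : GalQ) (A : ValuationSubring Qbar) :
    zbarIdeal (σ • A) = σ • zbarIdeal A := by
  ext b
  rw [mem_zbarIdeal, mem_nonunits_smul_iff, Ideal.mem_pointwise_smul_iff_inv_smul_mem,
    mem_zbarIdeal, coe_smul_zbar]

theorem liesOverPrime_smul_iff (σ : GalQ) : (σ • A).LiesOverPrime q ↔ A.LiesOverPrime q := by
  rw [ValuationSubring.LiesOverPrime, ValuationSubring.LiesOverPrime, mem_nonunits_smul_iff,
    map_natCast]

/-- A translate of a place over `q` lies over `q`. -/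
theorem liesOverPrime_smul (hA : A.LiesOverPrime q) (σ : GalQ) : (σ • A).LiesOverPrime q :=
  (liesOverPrime_smul_iff σ).mpr hA

/-- Decomposition is the stabiliser of the place. -/
theorem mem_decompositionSubgroup_iff_eq :
    σ ∈ A.decompositionSubgroup ℚ ↔ σ • A = A := Iff.rfl

/-- Decomposition is the stabiliser of the prime of algebraic integers below the place. -/
theorem mem_decompositionSubgroup_iff (hA : A.LiesOverPrime q) (hq : q.Prime) :
    σ ∈ A.decompositionSubgroup ℚ ↔ σ • zbarIdeal A = zbarIdeal A := by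
  rw [mem_decompositionSubgroup_iff_eq, ← zbarIdeal_smul]
  exact ⟨fun h ↦ by rw [h], fun h ↦ eq_of_zbarIdeal_eq (liesOverPrime_smul hA σ) hq h⟩

/-- Decomposition preserves membership in the place. -/
theorem apply_mem_iff (hσ : σ ∈ A.decompositionSubgroup ℚ) (x : Qbar) : σ x ∈ A ↔ x ∈ A := by
  conv_lhs => rw [← mem_decompositionSubgroup_iff_eq.mp hσ]
  exact apply_mem_smul_iff σ A x

/-- Decomposition preserves membership in the maximal ideal. -/
theorem apply_mem_nonunits_iff (hσ : σ ∈ A.decompositionSubgroup ℚ) (x : Qbar) :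
    σ x ∈ A.nonunits ↔ x ∈ A.nonunits := by
  rw [ValuationSubring.mem_nonunits_iff_or, ValuationSubring.mem_nonunits_iff_or, ← map_inv₀,
    apply_mem_iff hσ, map_eq_zero]

/-- Decomposition acts on the valuation ring through its action on the field. -/
theorem coe_smul_decomposition (g : A.decompositionSubgroup ℚ) (a : A) :
    ((g • a : A) : Qbar) = (g : GalQ) (a : Qbar) := rfl

/-- Reduction of algebraic integers is equivariant for decomposition. -/
theorem smul_zbarResidue (g : A.decompositionSubgroup ℚ) (b : Zbar) :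
    g • zbarResidue A b = zbarResidue A ((g : GalQ) • b) := rfl

/-! ### Residue action and inertia -/

/-- The condition that `σ` acts on residues of `A` through the map `φ`, read on algebraic
integers, determines the action on the residue field. -/
theorem residue_smul_eq_of_zbar (hA : A.LiesOverPrime q) (hq : q.Prime)
    (hσ : σ ∈ A.decompositionSubgroup ℚ)
    {φ : IsLocalRing.ResidueField A → IsLocalRing.ResidueField A}
    (h : ∀ b : Zbar, zbarResidue A (σ • b) = φ (zbarResidue A b))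
    (y : IsLocalRing.ResidueField A) :
    (⟨σ, hσ⟩ : A.decompositionSubgroup ℚ) • y = φ y := by
  obtain ⟨b, rfl⟩ := zbarResidue_surjective hA hq y
  rw [smul_zbarResidue, h]

/-- Inertia is the part of decomposition acting trivially on residues. -/
theorem mem_inertiaSubgroupIn_iff_smul :
    σ ∈ A.inertiaSubgroupIn ℚ ↔ ∃ hσ : σ ∈ A.decompositionSubgroup ℚ,
      ∀ y : IsLocalRing.ResidueField A, (⟨σ, hσ⟩ : A.decompositionSubgroup ℚ) • y = y := by
  constructor
  · rintro ⟨⟨g, hg⟩, hgI, rfl⟩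
    exact ⟨hg, fun y ↦ congr($(MonoidHom.mem_ker.mp hgI) y)⟩
  · rintro ⟨hσ, h⟩
    exact ⟨⟨σ, hσ⟩, MonoidHom.mem_ker.mpr (RingEquiv.ext h), rfl⟩

/-- Inertia lies in decomposition. -/
theorem inertiaSubgroupIn_le_decompositionSubgroup :
    A.inertiaSubgroupIn ℚ ≤ A.decompositionSubgroup ℚ := fun _ h ↦
  (mem_inertiaSubgroupIn_iff_smul.mp h).1

/-- Inertia moves integral elements only within the maximal ideal. -/
theorem mem_inertiaSubgroupIn_iff :
    σ ∈ A.inertiaSubgroupIn ℚ ↔
      σ ∈ A.decompositionSubgroup ℚ ∧ ∀ x ∈ A, σ x - x ∈ A.nonunits := by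
  rw [mem_inertiaSubgroupIn_iff_smul]
  constructor
  · rintro ⟨hσ, h⟩
    refine ⟨hσ, fun x hx ↦ ?_⟩
    have h' := h (IsLocalRing.residue A ⟨x, hx⟩)
    rw [← IsLocalRing.ResidueField.residue_smul, ← sub_eq_zero, ← map_sub,
      IsLocalRing.residue_eq_zero_iff, ← ValuationSubring.coe_mem_nonunits_iff] at h'
    exact h'
  · rintro ⟨hσ, h⟩
    refine ⟨hσ, fun y ↦ ?_⟩
    obtain ⟨⟨x, hx⟩, rfl⟩ := IsLocalRing.residue_surjective y
    rw [← IsLocalRing.ResidueField.residue_smul, ← sub_eq_zero, ← map_sub,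
      IsLocalRing.residue_eq_zero_iff, ← ValuationSubring.coe_mem_nonunits_iff]
    exact h x hx

/-- Inertia moves algebraic integers only within the prime below the place. -/
theorem smul_sub_mem_zbarIdeal_of_mem_inertia (hσ : σ ∈ A.inertiaSubgroupIn ℚ) (b : Zbar) :
    σ • b - b ∈ zbarIdeal A := by
  obtain ⟨hσ', h⟩ := mem_inertiaSubgroupIn_iff_smul.mp hσ
  rw [← zbarResidue_eq_iff, ← smul_zbarResidue ⟨σ, hσ'⟩, h]

theorem mem_decompositionSubgroup_of_residue_eq (hA : A.LiesOverPrime q) (hq : q.Prime)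
    {φ : IsLocalRing.ResidueField A → IsLocalRing.ResidueField A}
    (hφ : ∀ y, φ y = 0 ↔ y = 0) (h : ∀ b : Zbar, zbarResidue A (σ • b) = φ (zbarResidue A b)) :
    σ ∈ A.decompositionSubgroup ℚ := by
  rw [mem_decompositionSubgroup_iff hA hq]
  ext b
  rw [Ideal.mem_pointwise_smul_iff_inv_smul_mem, ← zbarResidue_eq_zero_iff,
    ← zbarResidue_eq_zero_iff (b := b), ← hφ, ← h, smul_inv_smul]

/-- Inertia is read on algebraic integers. -/
theorem mem_inertiaSubgroupIn_iff_zbar (hA : A.LiesOverPrime q) (hq : q.Prime) :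
    σ ∈ A.inertiaSubgroupIn ℚ ↔ ∀ b : Zbar, σ • b - b ∈ zbarIdeal A := by
  refine ⟨smul_sub_mem_zbarIdeal_of_mem_inertia, fun h ↦ ?_⟩
  have h' : ∀ b : Zbar, zbarResidue A (σ • b) = id (zbarResidue A b) :=
    fun b ↦ zbarResidue_eq_iff.mpr (h b)
  have hσ := mem_decompositionSubgroup_of_residue_eq hA hq (fun _ ↦ Iff.rfl) h'
  exact mem_inertiaSubgroupIn_iff_smul.mpr ⟨hσ, residue_smul_eq_of_zbar hA hq hσ h'⟩

/-! ### Frobenius elements -/

/-- Frobenius elements can be tested on algebraic integers. -/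
theorem isFrobeniusAt_iff_zbar (hA : A.LiesOverPrime q) (hq : q.Prime) :
    A.IsFrobeniusAt σ q ↔ ∀ b : Zbar, σ • b - b ^ q ∈ zbarIdeal A := by
  constructor
  · rintro ⟨hσ, h⟩ b
    rw [← zbarResidue_eq_iff, ← smul_zbarResidue ⟨σ, hσ⟩, h, map_pow]
  · intro h
    have h' : ∀ b : Zbar, zbarResidue A (σ • b) = (fun y ↦ y ^ q) (zbarResidue A b) :=
      fun b ↦ by simpa using zbarResidue_eq_iff.mpr (h b)
    have hσ := mem_decompositionSubgroup_of_residue_eq hA hq
      (fun y ↦ pow_eq_zero_iff hq.ne_zero) h'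
    exact ⟨hσ, residue_smul_eq_of_zbar hA hq hσ h'⟩

/-- Frobenius elements can be tested on the integral elements of the field. -/
theorem isFrobeniusAt_iff_isIntegral (hA : A.LiesOverPrime q) (hq : q.Prime) :
    A.IsFrobeniusAt σ q ↔ ∀ x : Qbar, IsIntegral ℤ x → σ x - x ^ q ∈ A.nonunits := by
  rw [isFrobeniusAt_iff_zbar hA hq]
  refine ⟨fun h x hx ↦ ?_, fun h b ↦ ?_⟩
  · have := mem_zbarIdeal.mp (h (⟨x, hx⟩ : Zbar))
    exact this
  · simpa [mem_zbarIdeal] using h _ (isIntegral_coe b)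

/-- Inertia times a Frobenius element is a Frobenius element. -/
theorem inertia_mul_IsFrobeniusAt (hτ : τ ∈ A.inertiaSubgroupIn ℚ) (hσ : A.IsFrobeniusAt σ q) :
    A.IsFrobeniusAt (τ * σ) q := by
  obtain ⟨hσ', h⟩ := hσ
  obtain ⟨hτ', h'⟩ := mem_inertiaSubgroupIn_iff_smul.mp hτ
  refine ⟨mul_mem hτ' hσ', fun y ↦ ?_⟩
  rw [show (⟨τ * σ, mul_mem hτ' hσ'⟩ : A.decompositionSubgroup ℚ) = ⟨τ, hτ'⟩ * ⟨σ, hσ'⟩ from rfl,
    mul_smul, h', h]

/-- Two Frobenius elements differ by inertia. -/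
theorem inv_mul_mem_inertia_of_isFrobeniusAt (hσ : A.IsFrobeniusAt σ q)
    (hτ : A.IsFrobeniusAt τ q) : σ⁻¹ * τ ∈ A.inertiaSubgroupIn ℚ := by
  obtain ⟨hσ', h⟩ := hσ
  obtain ⟨hτ', h'⟩ := hτ
  refine mem_inertiaSubgroupIn_iff_smul.mpr ⟨mul_mem (inv_mem hσ') hτ', fun y ↦ ?_⟩
  rw [show (⟨σ⁻¹ * τ, mul_mem (inv_mem hσ') hτ'⟩ : A.decompositionSubgroup ℚ) =
      ⟨σ, hσ'⟩⁻¹ * ⟨τ, hτ'⟩ from rfl, mul_smul, h', ← h, inv_smul_smul]

/-! ### Conjugation -/

/-- The decomposition group of a translated place is the conjugate group. -/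
theorem decompositionSubgroup_smul_iff (σ τ : GalQ) :
    τ * σ * τ⁻¹ ∈ (τ • A).decompositionSubgroup ℚ ↔ σ ∈ A.decompositionSubgroup ℚ := by
  rw [mem_decompositionSubgroup_iff_eq, mem_decompositionSubgroup_iff_eq, smul_smul,
    inv_mul_cancel_right, mul_smul, smul_left_cancel_iff]

/-- The inertia group of a translated place is the conjugate group. -/
theorem inertiaSubgroupIn_smul_iff (σ τ : GalQ) :
    τ * σ * τ⁻¹ ∈ (τ • A).inertiaSubgroupIn ℚ ↔ σ ∈ A.inertiaSubgroupIn ℚ := by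
  rw [mem_inertiaSubgroupIn_iff, mem_inertiaSubgroupIn_iff, decompositionSubgroup_smul_iff]
  refine and_congr_right fun _ ↦ ⟨fun h x hx ↦ ?_, fun h x hx ↦ ?_⟩
  · have := h (τ x) ((apply_mem_smul_iff τ A x).mpr hx)
    rw [mem_nonunits_smul_iff] at this
    simpa [map_sub, AlgEquiv.aut_inv] using this
  · rw [mem_smul_iff] at hx
    rw [mem_nonunits_smul_iff]
    simpa [map_sub, AlgEquiv.aut_inv] using h _ hx

/-- Conjugates of Frobenius elements are Frobenius elements at the conjugate places. -/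
theorem isFrobeniusAt_conj (hA : A.LiesOverPrime q) (hq : q.Prime) (hσ : A.IsFrobeniusAt σ q)
    (τ : GalQ) : (τ • A).IsFrobeniusAt (τ * σ * τ⁻¹) q := by
  rw [isFrobeniusAt_iff_isIntegral (liesOverPrime_smul hA τ) hq]
  intro x hx
  rw [mem_nonunits_smul_iff]
  have := (isFrobeniusAt_iff_isIntegral hA hq).mp hσ (τ⁻¹ x) (hx.map (τ⁻¹).toAlgHom)
  simpa [map_sub, map_pow, AlgEquiv.aut_inv] using this

/-! ### The main lifting results -/

private theorem continuousSMul_zbar (N : Subgroup GalQ) [TopologicalSpace Zbar]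
    [DiscreteTopology Zbar] : ContinuousSMul N Zbar := by
  rw [continuousSMul_iff_stabilizer_isOpen]
  intro b
  have : (MulAction.stabilizer N b : Set N) =
      Subtype.val ⁻¹' (MulAction.stabilizer GalQ (b : Qbar) : Set GalQ) := by
    ext g
    exact Subtype.ext_iff
  rw [this]
  exact (stabilizer_isOpen_of_isIntegral (b : Qbar)).preimage continuous_subtype_val

private theorem smul_fixed (N : Subgroup GalQ) (n : N)
    (c : FixedPoints.subalgebra ℤ Zbar N) : (n : GalQ) • (c : Zbar) = c :=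
  c.2 n

private theorem isInvariant_fixed (N : Subgroup GalQ) :
    Algebra.IsInvariant (FixedPoints.subalgebra ℤ Zbar N) Zbar N :=
  ⟨fun b hb ↦ ⟨⟨b, hb⟩, rfl⟩⟩

private theorem smulCommClass_fixed (N : Subgroup GalQ) :
    SMulCommClass N (FixedPoints.subalgebra ℤ Zbar N) Zbar := by
  refine ⟨fun n c b ↦ ?_⟩
  show (n : GalQ) • ((c : Zbar) * b) = (c : Zbar) * ((n : GalQ) • b)
  rw [smul_mul', smul_fixed N n c]

/-- Two places over `q` inducing the same prime on the algebraic integers fixed by a closed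
subgroup `N` are conjugate under `N`. -/
theorem exists_smul_eq_of_fixed (hA : A.LiesOverPrime q) (hq : q.Prime)
    (N : Subgroup GalQ) (hN : IsClosed (N : Set GalQ))
    (h : ∀ b : Zbar, (∀ n ∈ N, n • b = b) → (b ∈ zbarIdeal A ↔ b ∈ zbarIdeal B)) :
    ∃ τ ∈ N, τ • A = B := by
  let : TopologicalSpace Zbar := ⊥
  have : DiscreteTopology Zbar := ⟨rfl⟩
  have := continuousSMul_zbar N
  have : CompactSpace N := isCompact_iff_compactSpace.mp hN.isCompact
  have := isInvariant_fixed N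
  have := smulCommClass_fixed N
  obtain ⟨n, hn⟩ := Algebra.IsInvariant.exists_smul_of_under_eq_of_profinite
    (A := FixedPoints.subalgebra ℤ Zbar N) (G := N) (zbarIdeal A) (zbarIdeal B)
    (by ext c; exact h (c : Zbar) fun m hm ↦ c.2 ⟨m, hm⟩)
  refine ⟨n, n.2, eq_of_zbarIdeal_eq (liesOverPrime_smul hA _) hq ?_⟩
  rw [zbarIdeal_smul, hn]
  rfl

/-- An algebraic integer fixed by all of `Gal(ℚ̄/ℚ)` is an integer. -/
theorem exists_intCast_eq_of_fixed {b : Zbar} (hb : ∀ g : GalQ, g • b = b) :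
    ∃ m : ℤ, (m : Zbar) = b := by
  obtain ⟨r, hr⟩ := (InfiniteGalois.mem_range_algebraMap_iff_fixed (b : Qbar)).mpr
    (fun g ↦ congr((($(hb g) : Zbar) : Qbar)))
  have hint : IsIntegral ℤ r := by
    have h : IsIntegral ℤ (algebraMap ℚ Qbar r) := hr ▸ isIntegral_coe b
    exact (isIntegral_algebraMap_iff (algebraMap ℚ Qbar).injective).mp h
  obtain ⟨m, hm⟩ := IsIntegrallyClosed.isIntegral_iff.mp hint
  refine ⟨m, NumberField.RingOfIntegers.ext ?_⟩
  rw [← hr, ← hm]
  simp

/-- All places over a prime are conjugate. -/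
theorem exists_smul_eq (hA : A.LiesOverPrime q) (hB : B.LiesOverPrime q) (hq : q.Prime) :
    ∃ σ : GalQ, σ • A = B := by
  obtain ⟨τ, -, hτ⟩ := exists_smul_eq_of_fixed (B := B) hA hq ⊤ (by simp) fun b hb ↦ by
    obtain ⟨m, rfl⟩ := exists_intCast_eq_of_fixed fun g ↦ hb g (Subgroup.mem_top g)
    rw [intCast_mem_zbarIdeal_iff hA hq, intCast_mem_zbarIdeal_iff hB hq]
  exact ⟨τ, hτ⟩

/-- The decomposition group inside a closed subgroup `N` surjects onto the automorphisms of the
residue field fixing the residues of the algebraic integers fixed by `N`. -/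
theorem exists_mem_residue_smul_eq_of_fixing (hA : A.LiesOverPrime q) (hq : q.Prime)
    (N : Subgroup GalQ) (hN : IsClosed (N : Set GalQ))
    (φ : RingAut (IsLocalRing.ResidueField A))
    (h : ∀ b : Zbar, (∀ n ∈ N, n • b = b) → φ (zbarResidue A b) = zbarResidue A b) :
    ∃ τ ∈ N, ∃ hτ : τ ∈ A.decompositionSubgroup ℚ,
      ∀ y, (⟨τ, hτ⟩ : A.decompositionSubgroup ℚ) • y = φ y := by
  let : TopologicalSpace Zbar := ⊥
  have : DiscreteTopology Zbar := ⟨rfl⟩
  have := continuousSMul_zbar N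
  have : CompactSpace N := isCompact_iff_compactSpace.mp hN.isCompact
  have := isInvariant_fixed N
  have := smulCommClass_fixed N
  let F := FixedPoints.subalgebra ℤ Zbar N
  let e : (Zbar ⧸ zbarIdeal A) ≃+* IsLocalRing.ResidueField A :=
    (Ideal.quotEquivOfEq (ker_zbarResidue A).symm).trans
      (RingHom.quotientKerEquivOfSurjective (zbarResidue_surjective hA hq))
  have he : ∀ b : Zbar, e (Ideal.Quotient.mk _ b) = zbarResidue A b := fun b ↦ rfl
  let Φ : (Zbar ⧸ zbarIdeal A) ≃ₐ[F ⧸ (zbarIdeal A).under F] (Zbar ⧸ zbarIdeal A) :=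
    AlgEquiv.ofRingEquiv (f := (e.trans φ).trans e.symm) (by
      intro r
      obtain ⟨c, rfl⟩ := Ideal.Quotient.mk_surjective r
      rw [Ideal.Quotient.algebraMap_mk_of_liesOver, RingEquiv.trans_apply, RingEquiv.trans_apply,
        RingEquiv.symm_apply_eq, he]
      exact h (c : Zbar) fun m hm ↦ c.2 ⟨m, hm⟩)
  obtain ⟨⟨⟨τ, hτN⟩, hτP⟩, hτ⟩ := Ideal.Quotient.stabilizerHom_surjective_of_profinite
    (G := N) ((zbarIdeal A).under F) (zbarIdeal A) Φ
  have hτD : τ ∈ A.decompositionSubgroup ℚ := by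
    rw [mem_decompositionSubgroup_iff hA hq]
    exact hτP
  refine ⟨τ, hτN, hτD, residue_smul_eq_of_zbar hA hq hτD fun b ↦ ?_⟩
  have h1 := DFunLike.congr_fun hτ (Ideal.Quotient.mk (zbarIdeal A) b)
  have h2 : e (Ideal.Quotient.mk (zbarIdeal A) ((⟨τ, hτN⟩ : N) • b)) =
      e (Φ (Ideal.Quotient.mk (zbarIdeal A) b)) := congrArg e h1
  rw [he] at h2
  simp only [Φ, AlgEquiv.ofRingEquiv_apply, RingEquiv.trans_apply, RingEquiv.apply_symm_apply,
    he] at h2
  exact h2

/-- General lifting: if `σ` induces `φ` on residues of the algebraic integers fixed by the closed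
subgroup `N`, then an element of `σ N` lies in the decomposition group and induces `φ`. -/
theorem exists_mem_residue_smul_eq (hA : A.LiesOverPrime q) (hq : q.Prime)
    (N : Subgroup GalQ) (hN : IsClosed (N : Set GalQ)) (σ : GalQ)
    (φ : RingAut (IsLocalRing.ResidueField A))
    (h : ∀ b : Zbar, (∀ n ∈ N, n • b = b) →
      zbarResidue A (σ • b) = φ (zbarResidue A b)) :
    ∃ τ ∈ N, ∃ hmem : σ * τ ∈ A.decompositionSubgroup ℚ,
      ∀ y, (⟨σ * τ, hmem⟩ : A.decompositionSubgroup ℚ) • y = φ y := by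
  obtain ⟨τ₁, hτ₁, hτ₁'⟩ := exists_smul_eq_of_fixed (B := σ⁻¹ • A) hA hq N hN fun b hb ↦ by
    rw [zbarIdeal_smul, Ideal.mem_pointwise_smul_iff_inv_smul_mem, inv_inv,
      ← zbarResidue_eq_zero_iff, ← zbarResidue_eq_zero_iff (b := σ • b), h b hb,
      map_eq_zero_iff φ φ.injective]
  have hD : σ * τ₁ ∈ A.decompositionSubgroup ℚ := by
    rw [mem_decompositionSubgroup_iff_eq, mul_smul, hτ₁', smul_inv_smul]
  let g : A.decompositionSubgroup ℚ := ⟨σ * τ₁, hD⟩
  let ψ : RingAut (IsLocalRing.ResidueField A) :=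
    (MulSemiringAction.toRingAut (A.decompositionSubgroup ℚ) (IsLocalRing.ResidueField A) g)⁻¹ * φ
  obtain ⟨τ₂, hτ₂, hτ₂D, hτ₂'⟩ := exists_mem_residue_smul_eq_of_fixing hA hq N hN ψ fun b hb ↦ by
    show g⁻¹ • φ (zbarResidue A b) = _
    rw [inv_smul_eq_iff, smul_zbarResidue, ← h b hb, mul_smul, hb τ₁ hτ₁]
  refine ⟨τ₁ * τ₂, mul_mem hτ₁ hτ₂, by rw [← mul_assoc]; exact mul_mem hD hτ₂D, fun y ↦ ?_⟩
  have : (⟨σ * (τ₁ * τ₂), by rw [← mul_assoc]; exact mul_mem hD hτ₂D⟩ :
      A.decompositionSubgroup ℚ) = g * ⟨τ₂, hτ₂D⟩ := Subtype.ext (mul_assoc _ _ _).symm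
  rw [this, mul_smul, hτ₂']
  exact smul_inv_smul g _

/-- Lifting of inertia. -/
theorem exists_mem_inertia_lift (hA : A.LiesOverPrime q) (hq : q.Prime)
    (N : Subgroup GalQ) (hN : IsClosed (N : Set GalQ)) (σ : GalQ)
    (h : ∀ b : Zbar, (∀ n ∈ N, n • b = b) → σ • b - b ∈ zbarIdeal A) :
    ∃ τ ∈ N, σ * τ ∈ A.inertiaSubgroupIn ℚ := by
  obtain ⟨τ, hτ, hD, h'⟩ := exists_mem_residue_smul_eq hA hq N hN σ 1
    fun b hb ↦ zbarResidue_eq_iff.mpr (h b hb)
  exact ⟨τ, hτ, mem_inertiaSubgroupIn_iff_smul.mpr ⟨hD, h'⟩⟩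

/-- The decomposition group surjects onto the automorphisms of the residue field. -/
theorem exists_decomposition_smul_eq (hA : A.LiesOverPrime q) (hq : q.Prime)
    (φ : RingAut (IsLocalRing.ResidueField A)) :
    ∃ g : A.decompositionSubgroup ℚ, ∀ y, g • y = φ y := by
  obtain ⟨τ, -, hτ, h⟩ := exists_mem_residue_smul_eq_of_fixing hA hq ⊤ (by simp) φ fun b hb ↦ by
    obtain ⟨m, rfl⟩ := exists_intCast_eq_of_fixed fun g ↦ hb g (Subgroup.mem_top g)
    simp
  exact ⟨⟨τ, hτ⟩, h⟩

/-- The residue field of a place is algebraically closed. -/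
theorem residueField_isAlgClosed (A : ValuationSubring Qbar) :
    IsAlgClosed (IsLocalRing.ResidueField A) := by
  refine IsAlgClosed.of_exists_root _ fun p hp hirr ↦ ?_
  have hsurj : Function.Surjective (IsLocalRing.residue A) := IsLocalRing.residue_surjective
  obtain ⟨P, hP, hdeg, hmonic⟩ := Polynomial.lifts_and_degree_eq_and_monic
    ((Polynomial.lifts_iff_coeff_lifts _).mpr fun n ↦ hsurj _) hp
  have hP0 : P.degree ≠ 0 := by
    rw [hdeg]; exact hirr.degree_pos.ne'
  obtain ⟨x, hx⟩ := IsAlgClosed.exists_root (P.map A.subtype)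
    (by rwa [Polynomial.degree_map_eq_of_injective A.subtype_injective])
  have hxint : IsIntegral A x := ⟨P, hmonic, by
    rwa [Polynomial.IsRoot.def, Polynomial.eval_map] at hx⟩
  obtain ⟨y, rfl⟩ := IsIntegrallyClosed.algebraMap_eq_of_integral (K := Qbar) hxint
  refine ⟨IsLocalRing.residue A y, ?_⟩
  have hy : P.IsRoot y := hx.of_map A.subtype_injective
  rw [← hP, Polynomial.eval_map, Polynomial.eval₂_at_apply, hy.eq_zero, map_zero]

/-- Frobenius elements exist. -/
theorem exists_isFrobeniusAt (hA : A.LiesOverPrime q) (hq : q.Prime) :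
    ∃ σ : GalQ, A.IsFrobeniusAt σ q := by
  have := residueField_isAlgClosed A
  have := residueField_charP hA hq
  have : Fact q.Prime := ⟨hq⟩
  have : ExpChar (IsLocalRing.ResidueField A) q := .prime hq
  have : PerfectRing (IsLocalRing.ResidueField A) q := PerfectField.toPerfectRing q
  obtain ⟨g, hg⟩ := exists_decomposition_smul_eq hA hq
    (frobeniusEquiv (IsLocalRing.ResidueField A) q)
  exact ⟨g, g.2, fun y ↦ by rw [hg, frobeniusEquiv_apply, frobenius_def]⟩

/-- Frobenius lifts: an element acting as the `q`-power map on the algebraic integers fixed by a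
closed subgroup `N` agrees modulo `N` with a Frobenius element. -/
theorem exists_isFrobeniusAt_lift (hA : A.LiesOverPrime q) (hq : q.Prime)
    (N : Subgroup GalQ) (hN : IsClosed (N : Set GalQ)) (σ : GalQ)
    (h : ∀ b : Zbar, (∀ n ∈ N, n • b = b) → σ • b - b ^ q ∈ zbarIdeal A) :
    ∃ τ ∈ N, A.IsFrobeniusAt (σ * τ) q := by
  have := residueField_isAlgClosed A
  have := residueField_charP hA hq
  have : Fact q.Prime := ⟨hq⟩
  have : ExpChar (IsLocalRing.ResidueField A) q := .prime hq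
  have : PerfectRing (IsLocalRing.ResidueField A) q := PerfectField.toPerfectRing q
  obtain ⟨τ, hτ, hD, h'⟩ := exists_mem_residue_smul_eq hA hq N hN σ
    (frobeniusEquiv (IsLocalRing.ResidueField A) q) fun b hb ↦ by
      rw [frobeniusEquiv_apply, frobenius_def, ← map_pow]
      exact zbarResidue_eq_iff.mpr (h b hb)
  exact ⟨τ, hτ, hD, fun y ↦ by rw [h', frobeniusEquiv_apply, frobenius_def]⟩

/-- Every prime has a place with a Frobenius element. -/
theorem exists_place_isFrobeniusAt (hq : q.Prime) :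
    ∃ (A : ValuationSubring Qbar) (σ : GalQ), A.LiesOverPrime q ∧ A.IsFrobeniusAt σ q := by
  obtain ⟨A, hA⟩ := exists_liesOverPrime hq
  obtain ⟨σ, hσ⟩ := exists_isFrobeniusAt hA hq
  exact ⟨A, σ, hA, hσ⟩

end Fermat.Agent.GaloisBasics
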