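import Mathlib.NumberTheory.Cyclotomic.CyclotomicCharacter
import Mathlib.RingTheory.RootsOfUnity.AlgebraicallyClosed
import Mathlib.Algebra.Polynomial.Identities
import Fermat.Agent.GaloisBasics.Galois

/-!
# Inertia and Frobenius on simple roots

Inertia and Frobenius on roots of polynomials which stay separable modulo a place, in particular
on roots of unity of order prime to the residue characteristic.
-/

set_option autoImplicit false

open scoped Pointwise NumberField
open Polynomial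

namespace Fermat.Agent.GaloisBasics

variable {A : ValuationSubring Qbar} {q : ℕ} {σ : GalQ}

/-- Two roots in `A` of a polynomial over `A` which are congruent modulo the maximal ideal are
equal as soon as the first is a simple root modulo the maximal ideal. -/
theorem eq_of_isRoot_of_sub_mem {f : A[X]} {x y : A} (hx : f.IsRoot x) (hy : f.IsRoot y)
    (hxy : y - x ∈ IsLocalRing.maximalIdeal A)
    (hd : f.derivative.eval x ∉ IsLocalRing.maximalIdeal A) : y = x := by
  obtain ⟨c, hc⟩ := f.binomExpansion x (y - x)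
  rw [add_sub_cancel, hx.eq_zero, hy.eq_zero, zero_add] at hc
  by_contra hne
  refine hd ?_
  have h : (y - x) * (f.derivative.eval x + c * (y - x)) = 0 := by linear_combination -hc
  rw [mul_eq_zero, or_iff_right (sub_ne_zero.mpr hne)] at h
  rw [eq_neg_of_add_eq_zero_left h]
  exact neg_mem (Ideal.mul_mem_left _ _ hxy)

/-- Roots of unity of order prime to `q` which are congruent modulo a place over `q` are equal. -/
theorem eq_of_pow_eq_one_of_sub_mem_nonunits (hA : A.LiesOverPrime q) (hq : q.Prime)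
    {m : ℕ} (hm : ¬ q ∣ m) {x y : Qbar} (hx : x ^ m = 1) (hy : y ^ m = 1)
    (hxy : y - x ∈ A.nonunits) : y = x := by
  have hm0 : m ≠ 0 := by rintro rfl; exact hm (dvd_zero q)
  have hmem : ∀ z : Qbar, z ^ m = 1 → z ∈ A := fun z hz ↦
    mem_of_isIntegral A (IsIntegral.of_pow (Nat.pos_of_ne_zero hm0) (hz ▸ isIntegral_one))
  have hxA : (⟨x, hmem x hx⟩ : A) ^ m = 1 := Subtype.ext hx
  refine congrArg Subtype.val (eq_of_isRoot_of_sub_mem (f := X ^ m - C (1 : A))
    (x := ⟨x, hmem x hx⟩) (y := ⟨y, hmem y hy⟩) ?_ ?_ ?_ ?_)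
  · simp [hxA]
  · simp [show (⟨y, hmem y hy⟩ : A) ^ m = 1 from Subtype.ext hy]
  · exact ValuationSubring.coe_mem_nonunits_iff.mp hxy
  · simp only [derivative_sub, derivative_X_pow, derivative_C, sub_zero, eval_mul, eval_C,
      eval_pow, eval_X]
    intro h
    rcases Ideal.IsPrime.mem_or_mem inferInstance h with h | h
    · exact hm ((natCast_mem_nonunits_iff hA hq m).mp
        (ValuationSubring.coe_mem_nonunits_iff.mpr h))
    · refine Ideal.IsPrime.ne_top' (I := IsLocalRing.maximalIdeal A)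
        ((Ideal.eq_top_iff_one _).mpr ?_)
      rw [← hxA, ← Nat.sub_one_add_one hm0, pow_succ]
      exact Ideal.mul_mem_right _ _ h

/-- Inertia at `q` fixes roots of unity of order prime to `q`. -/
theorem inertia_apply_of_pow_eq_one (hA : A.LiesOverPrime q) (hq : q.Prime) {m : ℕ}
    (hm : ¬ q ∣ m) (hσ : σ ∈ A.inertiaSubgroupIn ℚ) {ζ : Qbar} (hζ : ζ ^ m = 1) :
    σ ζ = ζ := by
  have hm0 : m ≠ 0 := by rintro rfl; exact hm (dvd_zero q)
  refine eq_of_pow_eq_one_of_sub_mem_nonunits hA hq hm hζ (by rw [← map_pow, hζ, map_one]) ?_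
  exact (mem_inertiaSubgroupIn_iff.mp hσ).2 ζ
    (mem_of_isIntegral A (IsIntegral.of_pow (Nat.pos_of_ne_zero hm0) (hζ ▸ isIntegral_one)))

/-- A Frobenius at `q` raises roots of unity of order prime to `q` to their `q`-th power. -/
theorem frobenius_apply_of_pow_eq_one (hA : A.LiesOverPrime q) (hq : q.Prime) {m : ℕ}
    (hm : ¬ q ∣ m) (hσ : A.IsFrobeniusAt σ q) {ζ : Qbar} (hζ : ζ ^ m = 1) :
    σ ζ = ζ ^ q := by
  have hm0 : m ≠ 0 := by rintro rfl; exact hm (dvd_zero q)
  refine eq_of_pow_eq_one_of_sub_mem_nonunits hA hq hm ?_ (by rw [← map_pow, hζ, map_one]) ?_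
  · rw [← pow_mul, mul_comm, pow_mul, hζ, one_pow]
  · exact (isFrobeniusAt_iff_isIntegral hA hq).mp hσ ζ
      (IsIntegral.of_pow (Nat.pos_of_ne_zero hm0) (hζ ▸ isIntegral_one))

/-- The cyclotomic character is the exponent on the roots of unity. -/
theorem modularCyclotomicCharacter_eq_natCast {n : ℕ} [NeZero n]
    (hn : Nat.card (rootsOfUnity n Qbar) = n) (f : Qbar ≃+* Qbar) (k : ℕ)
    (h : ∀ ζ : Qbar, ζ ^ n = 1 → f ζ = ζ ^ k) :
    ((modularCyclotomicCharacter Qbar hn f : (ZMod n)ˣ) : ZMod n) = k := by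
  symm
  refine modularCyclotomicCharacter.unique Qbar hn f fun t ht ↦ ?_
  have h1 : ((t : Qbarˣ) : Qbar) ^ n = 1 := by
    rw [← Units.val_pow_eq_pow_val, (mem_rootsOfUnity n t).mp ht, Units.val_one]
  rw [h _ h1]
  simp only [ZMod.val_natCast]
  exact pow_eq_pow_mod _ h1

/-- The mod `n` cyclotomic character of a Frobenius at `q ∤ n` is `q`. -/
theorem modularCyclotomicCharacter_frobenius (hA : A.LiesOverPrime q) (hq : q.Prime)
    {n : ℕ} [NeZero n] (hn : Nat.card (rootsOfUnity n Qbar) = n) (hqn : ¬ q ∣ n)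
    (hσ : A.IsFrobeniusAt σ q) :
    ((modularCyclotomicCharacter Qbar hn (σ : Qbar ≃+* Qbar) : (ZMod n)ˣ) : ZMod n) = q :=
  modularCyclotomicCharacter_eq_natCast hn _ q fun _ hζ ↦
    frobenius_apply_of_pow_eq_one hA hq hqn hσ hζ

/-- The mod `n` cyclotomic character is trivial on inertia at `q ∤ n`. -/
theorem modularCyclotomicCharacter_inertia (hA : A.LiesOverPrime q) (hq : q.Prime)
    {n : ℕ} [NeZero n] (hn : Nat.card (rootsOfUnity n Qbar) = n) (hqn : ¬ q ∣ n)
    (hσ : σ ∈ A.inertiaSubgroupIn ℚ) :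
    modularCyclotomicCharacter Qbar hn (σ : Qbar ≃+* Qbar) = 1 := by
  ext
  rw [modularCyclotomicCharacter_eq_natCast hn _ 1 fun ζ hζ ↦ by
    rw [pow_one]; exact inertia_apply_of_pow_eq_one hA hq hqn hσ hζ]
  simp

/-- The `p`-adic cyclotomic character of a Frobenius at `q ≠ p` is `q`. -/
theorem cyclotomicCharacter_frobenius (hA : A.LiesOverPrime q) (hq : q.Prime)
    {p : ℕ} [Fact p.Prime] (hqp : q ≠ p) (hσ : A.IsFrobeniusAt σ q) :
    ((cyclotomicCharacter Qbar p (σ : Qbar ≃+* Qbar) : ℤ_[p]ˣ) : ℤ_[p]) = q := by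
  refine PadicInt.ext_of_toZModPow.mp fun i ↦ ?_
  rw [map_natCast, cyclotomicCharacter.toZModPow]
  exact modularCyclotomicCharacter_frobenius hA hq _
    (fun h ↦ hqp ((Nat.prime_dvd_prime_iff_eq hq Fact.out).mp (hq.dvd_of_dvd_pow h))) hσ

end Fermat.Agent.GaloisBasics
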