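import Mathlib.RingTheory.Frobenius
import Mathlib.NumberTheory.RamificationInertia.Galois
import Mathlib.NumberTheory.RamificationInertia.Unramified
import Mathlib.NumberTheory.NumberField.ExistsRamified
import Fermat.Agent.GaloisBasics.Galois

/-!
# Decomposition, inertia and Frobenius in finite extensions

Comparison of decomposition, inertia and Frobenius elements of valuation subrings of
`AlgebraicClosure ℚ` with those of prime ideals in finite Galois number fields.
-/

set_option autoImplicit false

open scoped Pointwise NumberField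

namespace Fermat.Agent.GaloisBasics

variable {A : ValuationSubring Qbar} {q : ℕ} {σ : GalQ} (K : IntermediateField ℚ Qbar)

instance numberField_of_finiteDimensional [FiniteDimensional ℚ K] : NumberField K :=
  { to_finiteDimensional := ‹_› }

/-- The inclusion of the integers of a subfield into all algebraic integers. -/
noncomputable def intIncl : 𝓞 K →+* Zbar := NumberField.RingOfIntegers.mapRingHom K.val

/-- The inclusion of integers is the inclusion of the field. -/
@[simp] theorem coe_intIncl (a : 𝓞 K) : (intIncl K a : Qbar) = ((a : K) : Qbar) := rfl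

/-- The inclusion of integers is injective. -/
theorem intIncl_injective : Function.Injective (intIncl K) := fun _ _ h ↦
  NumberField.RingOfIntegers.ext (Subtype.ext congr((($h : Zbar) : Qbar)))

/-- The prime of the integers of `K` below a valuation subring. -/
noncomputable def intIdeal (A : ValuationSubring Qbar) : Ideal (𝓞 K) :=
  (zbarIdeal A).comap (intIncl K)

/-- Membership in the ideal cut out by a place. -/
theorem mem_intIdeal {a : 𝓞 K} : a ∈ intIdeal K A ↔ ((a : K) : Qbar) ∈ A.nonunits := by
  rw [intIdeal, Ideal.mem_comap, mem_zbarIdeal, coe_intIncl]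

instance intIdeal_isPrime (A : ValuationSubring Qbar) : (intIdeal K A).IsPrime :=
  Ideal.IsPrime.comap _

/-- The residue characteristic lies in the ideal. -/
theorem natCast_mem_intIdeal (hA : A.LiesOverPrime q) : (q : 𝓞 K) ∈ intIdeal K A := by
  rw [intIdeal, Ideal.mem_comap, map_natCast]
  exact natCast_mem_zbarIdeal hA

/-- The ideal lies over the residue characteristic. -/
theorem under_int_intIdeal (hA : A.LiesOverPrime q) (hq : q.Prime) :
    (intIdeal K A).under ℤ = Ideal.span {(q : ℤ)} := by
  rw [← under_int_zbarIdeal hA hq]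
  ext n
  simp [intIdeal]

/-- The ideal cut out by a place over a prime is maximal. -/
theorem intIdeal_isMaximal (hA : A.LiesOverPrime q) (hq : q.Prime) :
    (intIdeal K A).IsMaximal := by
  refine Ideal.isMaximal_of_isIntegral_of_isMaximal_comap (R := ℤ) _ ?_
  rw [← Ideal.under_def, under_int_intIdeal K hA hq]
  exact PrincipalIdealRing.isMaximal_of_irreducible (Nat.prime_iff_prime_int.mp hq).irreducible

/-- Every prime of the integers of `K` containing `q` comes from a valuation subring over `q`. -/
theorem exists_intIdeal_eq (hq : q.Prime) (P : Ideal (𝓞 K)) [P.IsPrime]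
    (hP : (q : 𝓞 K) ∈ P) :
    ∃ A : ValuationSubring Qbar, A.LiesOverPrime q ∧ intIdeal K A = P := by
  let f : 𝓞 K →+* Qbar := (algebraMap Zbar Qbar).comp (intIncl K)
  have hf : Function.Injective f :=
    NumberField.RingOfIntegers.coe_injective.comp (intIncl_injective K)
  let e : 𝓞 K ≃+* f.range := RingEquiv.ofBijective f.rangeRestrict
    ⟨fun a b h ↦ hf congr(($h : Qbar)), f.rangeRestrict_surjective⟩
  obtain ⟨A, -, hA⟩ := (P.comap e.symm.toRingHom).image_subset_nonunits_valuationSubring
    (Ideal.IsPrime.comap _).ne_top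
  have key : ∀ a ∈ P, f a ∈ A.nonunits := fun a ha ↦
    hA ⟨e a, by simpa [Ideal.mem_comap] using ha, rfl⟩
  have hAq : A.LiesOverPrime q := by
    have := key _ hP
    rwa [map_natCast] at this
  refine ⟨A, hAq, le_antisymm ?_ fun a ha ↦ (mem_intIdeal K).mpr (key a ha)⟩
  have hmax : P.IsMaximal := by
    refine Ideal.isMaximal_of_isIntegral_of_isMaximal_comap (R := ℤ) _ ?_
    have hmax' : (Ideal.span {(q : ℤ)}).IsMaximal :=
      PrincipalIdealRing.isMaximal_of_irreducible (Nat.prime_iff_prime_int.mp hq).irreducible
    rwa [← hmax'.eq_of_le (Ideal.comap_ne_top _ Ideal.IsPrime.ne_top') (by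
      rw [Ideal.span_le, Set.singleton_subset_iff]
      simpa using hP)]
  exact (hmax.eq_of_le Ideal.IsPrime.ne_top'
    fun a ha ↦ (mem_intIdeal K).mpr (key a ha)).ge

/-- The algebraic integers fixed by `Gal(ℚ̄/K)` are the integers of `K`. -/
theorem fixed_iff_mem_range_intIncl (b : Zbar) :
    (∀ n ∈ K.fixingSubgroup, n • b = b) ↔ ∃ a : 𝓞 K, intIncl K a = b := by
  constructor
  · intro h
    have hb : (b : Qbar) ∈ K := by
      rw [← InfiniteGalois.fixedField_fixingSubgroup K, IntermediateField.mem_fixedField_iff]
      exact fun n hn ↦ congr((($(h n hn) : Zbar) : Qbar))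
    have hint : IsIntegral ℤ (⟨b, hb⟩ : K) :=
      (isIntegral_algHom_iff (K.val.restrictScalars ℤ) Subtype.val_injective).mp (isIntegral_coe b)
    exact ⟨⟨⟨b, hb⟩, hint⟩, NumberField.RingOfIntegers.ext rfl⟩
  · rintro ⟨a, rfl⟩ n hn
    exact NumberField.RingOfIntegers.ext
      ((IntermediateField.mem_fixingSubgroup_iff K n).mp hn _ (a : K).2)

section Galois

variable [IsGalois ℚ K]

/-- Restriction of automorphisms to `K`. -/
noncomputable def restrictK : GalQ →* (K ≃ₐ[ℚ] K) := AlgEquiv.restrictNormalHom K

/-- Restriction to a normal subfield is surjective. -/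
theorem restrictK_surjective : Function.Surjective (restrictK K) :=
  AlgEquiv.restrictNormalHom_surjective Qbar

/-- Restriction acts as the automorphism. -/
theorem coe_restrictK_apply (σ : GalQ) (x : K) : ((restrictK K σ x : K) : Qbar) = σ x :=
  AlgEquiv.restrictNormal_commutes σ K x

/-- The kernel of restriction is the fixing subgroup. -/
theorem ker_restrictK : (restrictK K).ker = K.fixingSubgroup := by
  ext σ
  rw [MonoidHom.mem_ker, IntermediateField.mem_fixingSubgroup_iff]
  constructor
  · intro h x hx
    simpa [h] using (coe_restrictK_apply K σ ⟨x, hx⟩).symm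
  · intro h
    ext x
    rw [coe_restrictK_apply, AlgEquiv.one_apply]
    exact h _ x.2

/-- The inclusion of integers is equivariant. -/
theorem intIncl_smul (σ : GalQ) (a : 𝓞 K) :
    intIncl K (restrictK K σ • a) = σ • intIncl K a :=
  NumberField.RingOfIntegers.ext (coe_restrictK_apply K σ a)

/-- The ideal of a translated place is the translated ideal. -/
theorem intIdeal_smul (σ : GalQ) (A : ValuationSubring Qbar) :
    intIdeal K (σ • A) = restrictK K σ • intIdeal K A := by
  ext a
  rw [Ideal.mem_pointwise_smul_iff_inv_smul_mem, ← map_inv, intIdeal, intIdeal, Ideal.mem_comap,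
    Ideal.mem_comap, intIncl_smul, zbarIdeal_smul, Ideal.mem_pointwise_smul_iff_inv_smul_mem]

/-- Congruences modulo the ideal can be tested among all algebraic integers. -/
theorem smul_sub_mem_intIdeal_iff (σ : GalQ) (a : 𝓞 K) :
    restrictK K σ • a - a ∈ intIdeal K A ↔
      σ • intIncl K a - intIncl K a ∈ zbarIdeal A := by
  rw [intIdeal, Ideal.mem_comap, map_sub, intIncl_smul]

/-- The image of inertia in a finite Galois group is the ideal inertia group. -/
theorem map_inertiaSubgroupIn (hA : A.LiesOverPrime q) (hq : q.Prime) :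
    (A.inertiaSubgroupIn ℚ).map (restrictK K) = (intIdeal K A).inertia (K ≃ₐ[ℚ] K) := by
  ext g
  rw [Subgroup.mem_map]
  constructor
  · rintro ⟨σ, hσ, rfl⟩ a
    exact (smul_sub_mem_intIdeal_iff K σ a).mpr (smul_sub_mem_zbarIdeal_of_mem_inertia hσ _)
  · intro hg
    obtain ⟨σ, rfl⟩ := restrictK_surjective K g
    obtain ⟨τ, hτ, hτI⟩ := exists_mem_inertia_lift hA hq K.fixingSubgroup
      (InfiniteGalois.fixingSubgroup_isClosed K) σ fun b hb ↦ by
        obtain ⟨a, rfl⟩ := (fixed_iff_mem_range_intIncl K b).mp hb
        exact (smul_sub_mem_intIdeal_iff K σ a).mp (hg a)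
    refine ⟨σ * τ, hτI, ?_⟩
    rw [← ker_restrictK, MonoidHom.mem_ker] at hτ
    rw [map_mul, hτ, mul_one]

omit [IsGalois ℚ K] in
/-- The residue ring of `ℤ` below a place over `q` has `q` elements. -/
theorem nat_card_int_quotient_under (hA : A.LiesOverPrime q) (hq : q.Prime) :
    Nat.card (ℤ ⧸ (intIdeal K A).under ℤ) = q := by
  rw [under_int_intIdeal K hA hq,
    Nat.card_congr (Int.quotientSpanNatEquivZMod q).toEquiv, Nat.card_zmod]

/-- A Frobenius at `A` restricts to an arithmetic Frobenius at the prime below. -/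
theorem isArithFrobAt_restrictK (hA : A.LiesOverPrime q) (hq : q.Prime)
    (hσ : A.IsFrobeniusAt σ q) : IsArithFrobAt ℤ (restrictK K σ) (intIdeal K A) := by
  intro a
  rw [nat_card_int_quotient_under K hA hq, MulSemiringAction.toAlgHom_apply, intIdeal,
    Ideal.mem_comap, map_sub, map_pow, intIncl_smul]
  exact (isFrobeniusAt_iff_zbar hA hq).mp hσ _

variable [FiniteDimensional ℚ K]

/-- Inertia at `A` fixes `K` iff the prime of `K` below `A` is unramified. -/
theorem inertia_le_fixingSubgroup_iff (hA : A.LiesOverPrime q) (hq : q.Prime) :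
    A.inertiaSubgroupIn ℚ ≤ K.fixingSubgroup ↔
      Algebra.IsUnramifiedAt ℤ (intIdeal K A) := by
  rw [← ker_restrictK, ← Subgroup.map_eq_bot_iff, map_inertiaSubgroupIn K hA hq]
  have := IsGaloisGroup.of_isFractionRing (K ≃ₐ[ℚ] K) ℤ (𝓞 K) ℚ K
  have := intIdeal_isMaximal K hA hq
  rw [← Subgroup.card_eq_one, Ideal.card_inertia_eq_ramificationIdxIn ((intIdeal K A).under ℤ) _,
    Ideal.ramificationIdxIn_eq_ramificationIdx _ (intIdeal K A) (K ≃ₐ[ℚ] K),
    Ideal.ramificationIdx_eq_one_iff]

end Galois

end Fermat.Agent.GaloisBasics
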