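import Mathlib.Algebra.CharP.Algebra
import Mathlib.Algebra.Algebra.ZMod
import Mathlib.FieldTheory.Finite.Basic
import Fermat.Agent.GaloisBasics.Galois

/-!
# The residue field at a place

The residue field at a place of `ℚ̄` over `q` is an algebraic closure of `ZMod q`.
-/

set_option autoImplicit false

namespace Fermat.Agent.GaloisBasics

variable {A : ValuationSubring Qbar} {q : ℕ}

/-- The residue field at a place over `q` is an algebraic closure of `ZMod q`. -/
theorem residueField_isAlgClosure [Fact q.Prime] [Algebra (ZMod q) (IsLocalRing.ResidueField A)]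
    (hA : A.LiesOverPrime q) : IsAlgClosure (ZMod q) (IsLocalRing.ResidueField A) := by
  refine ⟨residueField_isAlgClosed A, ⟨fun y ↦ IsIntegral.isAlgebraic ?_⟩⟩
  obtain ⟨b, rfl⟩ := zbarResidue_surjective hA Fact.out y
  obtain ⟨f, hf, hfb⟩ := (NumberField.RingOfIntegers.isIntegral b)
  refine ⟨f.map (Int.castRingHom (ZMod q)), hf.map _, ?_⟩
  rw [Polynomial.eval₂_map]
  have h := congr(zbarResidue A $hfb)
  rw [Polynomial.hom_eval₂, map_zero] at h
  rw [← h]
  congr 1
  exact RingHom.ext_int _ _

/-- Every element of the residue field satisfies `y ^ (q ^ f) = y` for some positive `f`. -/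
theorem exists_pow_card_eq (hA : A.LiesOverPrime q) (hq : q.Prime)
    (y : IsLocalRing.ResidueField A) : ∃ f : ℕ, 0 < f ∧ y ^ q ^ f = y := by
  have : Fact q.Prime := ⟨hq⟩
  have := residueField_charP hA hq
  let : Algebra (ZMod q) (IsLocalRing.ResidueField A) := ZMod.algebra _ q
  have := residueField_isAlgClosure hA
  let E := IntermediateField.adjoin (ZMod q) {y}
  have : FiniteDimensional (ZMod q) E :=
    IntermediateField.adjoin.finiteDimensional (Algebra.IsIntegral.isIntegral y)
  have : Finite E := Module.finite_of_finite (ZMod q)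
  have := Fintype.ofFinite E
  refine ⟨Module.finrank (ZMod q) E, Module.finrank_pos, ?_⟩
  have h := FiniteField.pow_card (⟨y, IntermediateField.mem_adjoin_simple_self _ y⟩ : E)
  rw [Module.card_eq_pow_finrank (K := ZMod q), ZMod.card] at h
  exact congrArg Subtype.val h

end Fermat.Agent.GaloisBasics
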