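import Fermat.Agent.GaloisBasics.Minkowski
import Fermat.Prelude.Def_GaloisRep_Adic
import Mathlib.RingTheory.AdicCompletion.Basic
import Mathlib.RingTheory.Filtration

/-!
# Unramified homomorphisms

Consequences of the conjugacy of places for homomorphisms out of `Gal(ℚ̄/ℚ)`.
-/

set_option autoImplicit false

open scoped Pointwise

namespace Fermat.Agent.GaloisBasics

variable {M : Type*} [Monoid M] {q : ℕ} {A B : ValuationSubring Qbar}

/-- Being killed on inertia at one place over `q` is the same as at every place over `q`. -/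
theorem map_inertia_eq_one_of_one_place (χ : GalQ →* M) (hA : A.LiesOverPrime q) (hq : q.Prime)
    (h : ∀ σ ∈ A.inertiaSubgroupIn ℚ, χ σ = 1) (hB : B.LiesOverPrime q) :
    ∀ σ ∈ B.inertiaSubgroupIn ℚ, χ σ = 1 := by
  obtain ⟨τ, rfl⟩ := exists_smul_eq hA hB hq
  intro σ hσ
  have h1 : τ⁻¹ * σ * τ ∈ A.inertiaSubgroupIn ℚ := by
    rw [← inertiaSubgroupIn_smul_iff (τ⁻¹ * σ * τ) τ]
    simpa [mul_assoc] using hσ
  have h2 := h _ h1
  calc χ σ = χ τ * χ (τ⁻¹ * σ * τ) * χ τ⁻¹ := by rw [← map_mul, ← map_mul]; simp [mul_assoc]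
    _ = 1 := by rw [h2, mul_one, ← map_mul, mul_inv_cancel, map_one]

/-- Frobenius elements at an unramified place have equal images. -/
theorem map_frobenius_eq (χ : GalQ →* M) (h : ∀ σ ∈ A.inertiaSubgroupIn ℚ, χ σ = 1)
    {σ τ : GalQ} (hσ : A.IsFrobeniusAt σ q) (hτ : A.IsFrobeniusAt τ q) : χ σ = χ τ := by
  conv_rhs => rw [← mul_inv_cancel_left σ τ]
  rw [map_mul, h _ (inv_mul_mem_inertia_of_isFrobeniusAt hσ hτ), mul_one]

/-- An adic representation unramified at every prime is trivial. -/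
theorem adic_eq_one_of_inertia {R : Type} [CommRing R] [IsLocalRing R] {V : Type}
    [AddCommGroup V] [Module R V] [IsHausdorff (IsLocalRing.maximalIdeal R) V]
    (ρ : GalQ →* Module.End R V) (hρ : GaloisActionIsAdicContinuous R ρ)
    (hI : ∀ q : ℕ, q.Prime → ∀ A : ValuationSubring Qbar, A.LiesOverPrime q →
      ∀ σ ∈ A.inertiaSubgroupIn ℚ, ρ σ = 1) :
    ρ = 1 := by
  refine MonoidHom.ext fun σ ↦ LinearMap.ext fun v ↦ ?_
  rw [MonoidHom.one_apply, Module.End.one_apply, ← sub_eq_zero]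
  refine IsHausdorff.haus ‹_› _ fun n ↦ ?_
  rw [SModEq.sub_mem, sub_zero]
  obtain ⟨L, hL, hLfix⟩ := hρ n
  let N : Submodule R V := IsLocalRing.maximalIdeal R ^ n • ⊤
  let H : Subgroup GalQ :=
    { carrier := {g | ∀ w : V, ρ g w - w ∈ N}
      one_mem' := fun w ↦ by simp
      mul_mem' := fun {g g'} hg hg' w ↦ by
        rw [map_mul, Module.End.mul_apply, ← sub_add_sub_cancel _ (ρ g' w)]
        exact add_mem (hg _) (hg' w)
      inv_mem' := fun {g} hg w ↦ by
        have := hg (ρ g⁻¹ w)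
        rw [← Module.End.mul_apply, ← map_mul, mul_inv_cancel, map_one, Module.End.one_apply]
          at this
        rw [← neg_sub]
        exact neg_mem this }
  have hH : H = ⊤ := eq_top_of_inertia_le H L
    (fun g hg ↦ hLfix g ((IntermediateField.mem_fixingSubgroup_iff L g).mp hg))
    (fun q hq A hA g hg w ↦ by rw [hI q hq A hA g hg, Module.End.one_apply, sub_self]; exact N.zero_mem)
  exact (hH ▸ Subgroup.mem_top σ : σ ∈ H) v

end Fermat.Agent.GaloisBasics
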