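import Fermat.Agent.GaloisBasics.Finite
import Fermat.Prelude.Def_GaloisRep_Residual

/-!
# Minkowski's theorem

Minkowski's theorem in Galois-theoretic form: the inertia groups at all primes generate the
absolute Galois group of `ℚ` topologically.
-/

set_option autoImplicit false

open scoped Pointwise NumberField

namespace Fermat.Agent.GaloisBasics

/-- A subgroup containing the fixing subgroup of a finite extension of `ℚ` and all inertia groups
is everything. -/
theorem eq_top_of_inertia_le (H : Subgroup GalQ) (L : IntermediateField ℚ Qbar)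
    [FiniteDimensional ℚ L] (hL : L.fixingSubgroup ≤ H)
    (hI : ∀ q : ℕ, q.Prime → ∀ A : ValuationSubring Qbar, A.LiesOverPrime q →
      A.inertiaSubgroupIn ℚ ≤ H) :
    H = ⊤ := by
  let L' := IntermediateField.normalClosure ℚ L Qbar
  have : FiniteDimensional ℚ L' := normalClosure.is_finiteDimensional ℚ L Qbar
  have : IsGalois ℚ L' := IsGalois.normalClosure ℚ L Qbar
  have := (InfiniteGalois.normal_iff_isGalois L').mpr inferInstance
  have hL' : L'.fixingSubgroup ≤ H.normalCore :=
    Subgroup.normal_le_normalCore.mpr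
      ((IntermediateField.fixingSubgroup_antitone L.le_normalClosure).trans hL)
  have hclosed : IsClosed (H.normalCore : Set GalQ) :=
    Subgroup.isClosed_of_isOpen _ (Subgroup.isOpen_mono hL' L'.fixingSubgroup_isOpen)
  let F := IntermediateField.fixedField H.normalCore
  have hF : F.fixingSubgroup = H.normalCore :=
    InfiniteGalois.fixingSubgroup_fixedField ⟨H.normalCore, hclosed⟩
  have hFL : F ≤ L' :=
    (IntermediateField.fixedField_antitone hL').trans
      (InfiniteGalois.fixedField_fixingSubgroup L').le
  have : FiniteDimensional ℚ F := FiniteDimensional.of_injective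
    (IntermediateField.inclusion hFL).toLinearMap (IntermediateField.inclusion_injective hFL)
  have : F.fixingSubgroup.Normal := hF ▸ inferInstance
  have : IsGalois ℚ F := (InfiniteGalois.normal_iff_isGalois F).mp inferInstance
  have hrank : Module.finrank ℚ F = 1 := by
    by_contra hne
    obtain ⟨P, hP, hPram⟩ := NumberField.exists_not_isUnramifiedAt_int (𝒪 := 𝓞 F) hne
    have := hP
    obtain ⟨n, hn⟩ := IsPrincipalIdealRing.principal (P.under ℤ)
    replace hn : P.under ℤ = Ideal.span {n} := hn
    have hn0 : n ≠ 0 := by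
      rintro rfl
      exact Ideal.IsMaximal.ne_bot_of_isIntegral_int P
        (Ideal.eq_bot_of_comap_eq_bot (hn.trans (by simp)))
    have hnp : Prime n := by
      rw [← Ideal.span_singleton_prime hn0, ← hn]
      infer_instance
    have hq := Int.prime_iff_natAbs_prime.mp hnp
    have hmem : ((n.natAbs : ℕ) : 𝓞 F) ∈ P := by
      have : ((n.natAbs : ℕ) : ℤ) ∈ P.under ℤ := by
        rw [hn, Ideal.mem_span_singleton]
        exact Int.dvd_natAbs.mpr dvd_rfl
      rw [Ideal.mem_comap] at this
      simpa using this
    obtain ⟨A, hA, rfl⟩ := exists_intIdeal_eq F hq P hmem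
    refine hPram ((inertia_le_fixingSubgroup_iff F hA hq).mp ?_)
    rw [hF]
    intro σ hσ g
    exact hI _ hq (g • A) (liesOverPrime_smul hA g) ((inertiaSubgroupIn_smul_iff σ g).mpr hσ)
  have hbot : F = ⊥ := IntermediateField.finrank_eq_one_iff.mp hrank
  refine top_le_iff.mp (le_trans ?_ H.normalCore_le)
  rw [← hF, hbot, IntermediateField.fixingSubgroup_bot]

/-- A continuous homomorphism killed by all inertia groups is trivial. -/
theorem eq_one_of_inertia {M : Type} [Monoid M] (χ : GalQ →* M)
    (hfin : GaloisFactorsThroughFiniteLevel χ)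
    (hI : ∀ q : ℕ, q.Prime → ∀ A : ValuationSubring Qbar, A.LiesOverPrime q →
      ∀ σ ∈ A.inertiaSubgroupIn ℚ, χ σ = 1) :
    χ = 1 := by
  obtain ⟨L, hL, h⟩ := hfin
  have := eq_top_of_inertia_le χ.ker L
    (fun σ hσ ↦ h σ ((IntermediateField.mem_fixingSubgroup_iff L σ).mp hσ))
    (fun q hq A hA σ hσ ↦ hI q hq A hA σ hσ)
  exact MonoidHom.ext fun σ ↦ MonoidHom.mem_ker.mp (this ▸ Subgroup.mem_top σ)

end Fermat.Agent.GaloisBasics
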